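/-
Project S35 (SS2), cell [DESC-U] (helper22), part (D2a): THE FIXED FIELD OF `Gal(Q̄ / L1)` IN `F_Q̄`.

`F₀ ⊆ ℚ((q))`, `F_L := laurentBaseChange L F₀`, `L1 → Q̄` a subfield.

* `ss2_du_repr`            : every `y ∈ F_Q̄` is `∑_{m<d} bc(c_m) θ^m`, `θ ∈ Q̄` of degree `d` over `L1`,
                             `c_m ∈ F_{L1}`;
* `ss2_du_exists_conj`     : the `d` conjugates of `θ` over `L1` are `τ θ`, `τ ∈ Gal(Q̄/L1)`;
* `ss2_du_fixed_mem_range` : an element of `F_Q̄` fixed by (the coefficientwise action of) every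
                             `τ ∈ G_ℚ` fixing `L1` pointwise is the base change of an element of
                             `F_{L1}`  (Vandermonde; relative version of helper29's `mw_ref_repr`).
Prefix `ss2_du_`.
-/
import Mathlib
import Fermat.Agent.SS.Descent.Rational
import Fermat.Agent.MW.Ref.Lin

set_option autoImplicit false
set_option linter.unusedSectionVars false
set_option linter.unusedVariables false
set_option linter.style.haveILetI false

noncomputable section

namespace Fermat.Agent.SS2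

open ModularCurve AlgebraicCurve Fermat.Agent.JT3 Fermat.Agent.S24 Fermat.Agent.SS
  Fermat.Agent.MW IntermediateField Polynomial

local notation "Qb" => AlgebraicClosure ℚ

variable (F₀ : IntermediateField ℚ (LaurentSeries ℚ))
  (L1 : Type) [Field L1] [Algebra ℚ L1] [Algebra L1 Qb] [IsScalarTower ℚ L1 Qb]

attribute [local instance] dsc_bcAlgebra

/-- every element of `F_Q̄` is a polynomial in a constant `θ`, of degree less than the degree of
`θ` over `L1`, with coefficients in `F_{L1}`. -/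
theorem ss2_du_repr (y : laurentBaseChange Qb F₀) :
    ∃ (θ : Qb) (c : ℕ → laurentBaseChange L1 F₀),
      y = ∑ m ∈ Finset.range (minpoly L1 θ).natDegree,
        dsc_bcHom L1 Qb F₀ (c m) * algebraMap Qb (laurentBaseChange Qb F₀) θ ^ m := by
  haveI : Algebra.IsAlgebraic ℚ Qb := AlgebraicClosure.isAlgebraic ℚ
  haveI : Algebra.IsAlgebraic L1 Qb := Algebra.IsAlgebraic.tower_top (K := ℚ) L1
  obtain ⟨θ, hθ⟩ := dsc_bc_hgen L1 Qb F₀ y
  refine ⟨θ, ?_⟩
  have hθint : IsIntegral L1 θ := Algebra.IsIntegral.isIntegral θ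
  have hμmonic : ((minpoly L1 θ).map (algebraMap L1 (laurentBaseChange L1 F₀))).Monic :=
    (minpoly.monic hθint).map _
  have hcomp : (algebraMap (laurentBaseChange L1 F₀) (laurentBaseChange Qb F₀)).comp
      (algebraMap L1 (laurentBaseChange L1 F₀))
      = (algebraMap Qb (laurentBaseChange Qb F₀)).comp (algebraMap L1 Qb) := by
    refine RingHom.ext fun a => ?_
    exact dsc_bcHom_algebraMap L1 Qb F₀ a
  have hμroot : aeval (algebraMap Qb (laurentBaseChange Qb F₀) θ)
      ((minpoly L1 θ).map (algebraMap L1 (laurentBaseChange L1 F₀))) = 0 := by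
    rw [aeval_def, eval₂_map, hcomp, ← hom_eval₂, ← aeval_def, minpoly.aeval, map_zero]
  have hαint : IsIntegral (laurentBaseChange L1 F₀)
      (algebraMap Qb (laurentBaseChange Qb F₀) θ) :=
    ⟨_, hμmonic, by rwa [aeval_def] at hμroot⟩
  have hy : y ∈ Algebra.adjoin (laurentBaseChange L1 F₀)
      {algebraMap Qb (laurentBaseChange Qb F₀) θ} := by
    rw [← IntermediateField.adjoin_simple_toSubalgebra_of_isAlgebraic hαint.isAlgebraic]
    exact hθ
  rw [Algebra.adjoin_singleton_eq_range_aeval] at hy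
  obtain ⟨p, rfl⟩ := hy
  refine ⟨fun m => (p %ₘ (minpoly L1 θ).map (algebraMap L1 (laurentBaseChange L1 F₀))).coeff m,
    ?_⟩
  have hne1 : (minpoly L1 θ).map (algebraMap L1 (laurentBaseChange L1 F₀)) ≠ 1 := by
    intro h
    have h1 := congrArg natDegree h
    rw [natDegree_map, natDegree_one] at h1
    exact (minpoly.natDegree_pos hθint).ne' h1
  have hdeg : (p %ₘ (minpoly L1 θ).map (algebraMap L1 (laurentBaseChange L1 F₀))).natDegree
      < (minpoly L1 θ).natDegree := by
    have := natDegree_modByMonic_lt p hμmonic hne1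
    rwa [natDegree_map] at this
  show aeval (algebraMap Qb (laurentBaseChange Qb F₀) θ) p = _
  rw [← aeval_modByMonic_eq_self_of_root hμroot, aeval_eq_sum_range' hdeg]
  refine Finset.sum_congr rfl fun m _ => ?_
  rw [Algebra.smul_def]
  rfl

/-- the conjugates of `θ` over `L1` are its images under the automorphisms of `Q̄` fixing `L1`. -/
theorem ss2_du_exists_conj (θ : Qb) :
    ∃ t : Fin (minpoly L1 θ).natDegree → Qb, Function.Injective t ∧
      ∀ j, ∃ τ : Qb ≃ₐ[ℚ] Qb, (∀ a : L1, τ (algebraMap L1 Qb a) = algebraMap L1 Qb a) ∧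
        τ θ = t j := by
  haveI : CharZero L1 := algebraRat.charZero L1
  haveI : Algebra.IsAlgebraic ℚ Qb := AlgebraicClosure.isAlgebraic ℚ
  haveI : Algebra.IsAlgebraic L1 Qb := Algebra.IsAlgebraic.tower_top (K := ℚ) L1
  haveI : IsAlgClosure L1 Qb := ⟨inferInstance, inferInstance⟩
  haveI : Normal L1 Qb := IsAlgClosure.normal L1 Qb
  have hθint : IsIntegral L1 θ := Algebra.IsIntegral.isIntegral θ
  have hsep : (minpoly L1 θ).Separable := (minpoly.irreducible hθint).separable
  have hcard : Fintype.card ((minpoly L1 θ).rootSet Qb) = (minpoly L1 θ).natDegree :=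
    card_rootSet_eq_natDegree hsep (IsAlgClosed.splits _)
  let e : Fin (minpoly L1 θ).natDegree ≃ (minpoly L1 θ).rootSet Qb :=
    (Fintype.equivFinOfCardEq hcard).symm
  refine ⟨fun j => (e j : Qb), fun i j h => e.injective (Subtype.ext h), fun j => ?_⟩
  have hroot : aeval (e j : Qb) (minpoly L1 θ) = 0 := (mem_rootSet.mp (e j).2).2
  have hconj : IsConjRoot L1 θ (e j : Qb) := isConjRoot_of_aeval_eq_zero hθint hroot
  obtain ⟨τ, hτ⟩ := isConjRoot_iff_exists_algEquiv.mp hconj.symm
  exact ⟨τ.restrictScalars ℚ, fun a => τ.commutes a, hτ⟩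

/-- **the fixed field**: an element of `F_Q̄` fixed by every `τ ∈ G_ℚ` which fixes `L1` pointwise
comes from `F_{L1}`. -/
theorem ss2_du_fixed_mem_range (y : laurentBaseChange Qb F₀)
    (hy : ∀ τ : Qb ≃ₐ[ℚ] Qb, (∀ a : L1, τ (algebraMap L1 Qb a) = algebraMap L1 Qb a) →
      arithmeticGalois F₀ τ • y = y) :
    ∃ y1 : laurentBaseChange L1 F₀, dsc_bcHom L1 Qb F₀ y1 = y := by
  classical
  haveI : Algebra.IsAlgebraic ℚ Qb := AlgebraicClosure.isAlgebraic ℚ
  haveI : Algebra.IsAlgebraic L1 Qb := Algebra.IsAlgebraic.tower_top (K := ℚ) L1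
  obtain ⟨θ, c, hyc⟩ := ss2_du_repr F₀ L1 y
  obtain ⟨t, htinj, ht⟩ := ss2_du_exists_conj L1 θ
  have hθint : IsIntegral L1 θ := Algebra.IsIntegral.isIntegral θ
  have hd : 0 < (minpoly L1 θ).natDegree := minpoly.natDegree_pos hθint
  refine ⟨c 0, ?_⟩
  set w : Fin (minpoly L1 θ).natDegree → laurentBaseChange Qb F₀ := fun m =>
    dsc_bcHom L1 Qb F₀ (c m) - (if (m : ℕ) = 0 then y else 0) with hw
  have hz : ∀ m : Fin (minpoly L1 θ).natDegree, w m ∈ (⊥ : Submodule Qb (laurentBaseChange Qb F₀)) := by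
    apply mw_ref_mem_of_vandermonde t htinj _ w
    intro j
    obtain ⟨τ, hτfix, hτ⟩ := ht j
    have hsm : ∑ m : Fin (minpoly L1 θ).natDegree, t j ^ (m : ℕ) • dsc_bcHom L1 Qb F₀ (c m)
        = arithmeticGalois F₀ τ • y := by
      conv_rhs => rw [hyc]
      rw [Finset.smul_sum, Finset.sum_range]
      refine Finset.sum_congr rfl fun m _ => ?_
      rw [smul_mul', smul_pow', ssd_smul_bcHom F₀ L1 τ hτfix, SemilinearAut.smul_algebraMap,
        Algebra.smul_def, map_pow, mul_comm]
      congr 2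
      rw [← hτ]
      rfl
    have hsm2 : ∑ m : Fin (minpoly L1 θ).natDegree,
        t j ^ (m : ℕ) • (if (m : ℕ) = 0 then y else 0) = y := by
      rw [Finset.sum_eq_single (⟨0, hd⟩ : Fin (minpoly L1 θ).natDegree)]
      · simp
      · intro b _ hb
        have : (b : ℕ) ≠ 0 := fun h => hb (Fin.ext h)
        rw [if_neg this, smul_zero]
      · intro h
        exact absurd (Finset.mem_univ _) h
    rw [Submodule.mem_bot]
    simp only [hw, smul_sub]
    rw [Finset.sum_sub_distrib, hsm, hsm2, hy τ hτfix, sub_self]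
  have h0 := hz ⟨0, hd⟩
  rw [Submodule.mem_bot] at h0
  simp only [hw] at h0
  rw [if_pos trivial, sub_eq_zero] at h0
  exact h0

end Fermat.Agent.SS2
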