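/-
Project S35 (SS2), cell [DESC-U] (helper22), part (D1): A CLASS FIXED BY A SET OF SEMILINEAR
AUTOMORPHISMS CONTAINS A STABLE DIVISOR.

`F / K` a function field over an algebraically closed field `K` with a separating generator `x`,
`S` a set of semilinear automorphisms all fixing a place `v0`.

* `ss2_du_exists_stable_rep` : a class `c ∈ Pic⁰` with `g • c = c` for all `g ∈ S` is the class of
  `E - n v0` with `E` effective of degree `n` and `g • E = E` for ALL `g ∈ S` (the same `E`: `n` is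
  minimal with `l(D + n v0) > 0`, and then `|D + n v0|` has exactly one element);
* `ss2_du_kummer_stable`     : Kummer form.  `f ≠ 0` with all orders divisible by `m ≥ 1` and
  `g • f = c_g · r_g^m · f` for all `g ∈ S` (`c_g ∈ K`, `r_g ∈ Fˣ`) ⟹ there is `r0 ≠ 0` such that
  `f' := f · r0^m` satisfies `g • f' = a_g · f'` with `a_g ∈ Kˣ` for all `g ∈ S`.

(Twin of helper6's `fcl_exists_stable_rep` (S35/FixedClasses.lean) with a set of automorphisms.)
Prefix `ss2_du_`.
-/
import Mathlib
import Fermat.Agent.JT3.Riemann.Main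
import Fermat.Agent.S35.FixedClasses
import Fermat.Prelude.Def_AlgebraicCurve_BaseChangeGalois

set_option autoImplicit false
set_option linter.unusedSectionVars false
set_option linter.unusedVariables false

namespace Fermat.Agent.SS2

open AlgebraicCurve IntermediateField Polynomial Fermat.Agent.S24 Fermat.Agent.JT3
  Fermat.Agent.S35

universe u v
variable {K : Type u} {F : Type v} [Field K] [Field F] [Algebra K F]

section rep

variable [IsAlgClosed K] {x : F} (hx : rt_IsSepGen K x) (S : Set (SemilinearAut K F))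

include hx

/-- **the canonical stable representative** of a class fixed by a set of semilinear
automorphisms. -/
theorem ss2_du_exists_stable_rep (v0 : Place K F) (hv0 : ∀ g ∈ S, g • v0 = v0)
    (c : Pic0 K F) (hc : ∀ g ∈ S, g • c = c) :
    ∃ (n : ℕ) (E : Divisor K F)
      (hdeg : E - n • Finsupp.single v0 (1 : ℤ) ∈ Divisor.degZero (K := K) (F := F)),
      0 ≤ E ∧ Divisor.degree E = n ∧ (∀ g ∈ S, g • E = E) ∧
        c = Pic0.mk ⟨E - n • Finsupp.single v0 (1 : ℤ), hdeg⟩ := by
  classical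
  obtain ⟨γ, hγ⟩ := rt_riemann_ineq hx
  obtain ⟨⟨D, hD⟩, rfl⟩ := Pic0.mk_surjective c
  have hD0 : Divisor.degree D = 0 := Divisor.mem_degZero.mp hD
  have hdegA : ∀ m : ℕ, Divisor.degree (D + m • Finsupp.single v0 (1 : ℤ)) = m := by
    intro m
    rw [map_add, map_nsmul, rt_degree_single hx, hD0, zero_add, nsmul_eq_mul, mul_one]
  -- the minimal `n`
  have hPγ : 0 < Module.finrank K ↥(riemannRochSpace (D + γ • Finsupp.single v0 (1 : ℤ))) := by
    have h1 := hγ (D + γ • Finsupp.single v0 (1 : ℤ))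
    rw [hdegA] at h1
    have : (0 : ℤ) < (Module.finrank K
        ↥(riemannRochSpace (D + γ • Finsupp.single v0 (1 : ℤ))) : ℤ) := by omega
    exact_mod_cast this
  let P : ℕ → Prop := fun m =>
    0 < Module.finrank K ↥(riemannRochSpace (D + m • Finsupp.single v0 (1 : ℤ)))
  have hex : ∃ m, P m := ⟨γ, hPγ⟩
  obtain ⟨n, hPn, hmin⟩ : ∃ n, P n ∧ ∀ m < n, ¬ P m :=
    ⟨Nat.find hex, Nat.find_spec hex, fun m hm => Nat.find_min hex hm⟩
  obtain ⟨A, hA⟩ : ∃ A : Divisor K F, A = D + n • Finsupp.single v0 (1 : ℤ) := ⟨_, rfl⟩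
  obtain ⟨A', hA'⟩ : ∃ A' : Divisor K F, A' = A - Finsupp.single v0 (1 : ℤ) := ⟨_, rfl⟩
  have hAA' : A = A' + Finsupp.single v0 (1 : ℤ) := by rw [hA', sub_add_cancel]
  have hPn' : 0 < Module.finrank K ↥(riemannRochSpace A) := by rw [hA]; exact hPn
  -- `L(A') = 0`
  have hLA' : ∀ f' ∈ riemannRochSpace A', f' = 0 := by
    intro f' hf'
    rcases Nat.eq_zero_or_pos n with h0 | hpos
    · have hdeg : Divisor.degree A' < 0 := by
        rw [hA', map_sub, hA, hdegA, rt_degree_single hx, h0]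
        norm_num
      have := rt_L_eq_bot_of_degree_neg hx hdeg
      rw [this, Submodule.mem_bot] at hf'
      exact hf'
    · obtain ⟨m, hm⟩ : ∃ m, n = m + 1 := ⟨n - 1, by omega⟩
      have hA'm : A' = D + m • Finsupp.single v0 (1 : ℤ) := by
        rw [hA', hA, hm, succ_nsmul]
        abel
      have hnot : ¬ P m := hmin m (by omega)
      by_contra hf0
      apply hnot
      show 0 < Module.finrank K ↥(riemannRochSpace (D + m • Finsupp.single v0 (1 : ℤ)))
      rw [← hA'm]
      have := rt_L_finite hx A'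
      exact Module.finrank_pos_iff_exists_ne_zero.mpr
        ⟨⟨f', hf'⟩, fun h => hf0 (congrArg Subtype.val h)⟩
  -- `L(A)` is a line
  obtain ⟨h, hh⟩ := rt_L_step hx A' v0
  rw [← hAA'] at hh
  have hline : ∀ f' ∈ riemannRochSpace A, ∃ b : K, f' = b • h := by
    intro f' hf'
    obtain ⟨y, hy, z, hz, rfl⟩ := Submodule.mem_sup.mp (hh hf')
    obtain ⟨b, rfl⟩ := Submodule.mem_span_singleton.mp hz
    exact ⟨b, by rw [hLA' y hy, zero_add]⟩
  have := rt_L_finite hx A
  obtain ⟨⟨f, hfmem⟩, hf0'⟩ := Module.finrank_pos_iff_exists_ne_zero.mp hPn'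
  have hf0 : f ≠ 0 := fun h0 => hf0' (Subtype.ext h0)
  obtain ⟨b, hb⟩ := hline f hfmem
  have hb0 : b ≠ 0 := by
    rintro rfl
    rw [zero_smul] at hb
    exact hf0 hb
  have hline' : ∀ f' ∈ riemannRochSpace A, ∃ a : K, f' = a • f := by
    intro f' hf'
    obtain ⟨b', rfl⟩ := hline f' hf'
    refine ⟨b' * b⁻¹, ?_⟩
    rw [hb, smul_smul, mul_assoc, inv_mul_cancel₀ hb0, mul_one]
  -- the effective divisor
  obtain ⟨E, hE⟩ : ∃ E : Divisor K F, E = A + rt_div hx f := ⟨_, rfl⟩
  have hE0 : 0 ≤ E := by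
    rw [Finsupp.le_def]
    intro v
    have := (rt_mem_L_iff hf0).mp hfmem v
    rw [Finsupp.zero_apply, hE, Finsupp.add_apply, rt_div_apply]
    omega
  have hEdeg : Divisor.degree E = n := by
    rw [hE, map_add, rt_degree_div, add_zero, hA, hdegA]
  have hEn : E - n • Finsupp.single v0 (1 : ℤ) = D + rt_div hx f := by
    rw [hE, hA]; abel
  have hdegZ : E - n • Finsupp.single v0 (1 : ℤ) ∈ Divisor.degZero (K := K) (F := F) := by
    rw [Divisor.mem_degZero, hEn, map_add, hD0, rt_degree_div, add_zero]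
  refine ⟨n, E, hdegZ, hE0, hEdeg, ?_, ?_⟩
  · intro g hg
    have hv0g : g • v0 = v0 := hv0 g hg
    have hcg := hc g hg
    -- the relation from `g • c = c`
    have hrel : ∃ h0 : F, h0 ≠ 0 ∧ ∀ v : Place K F, (-(g • D) + D) v = v.ord h0 := by
      rw [SemilinearAut.pic0_smul_mk] at hcg
      have h1 := (QuotientAddGroup.eq).mp hcg
      rw [AddSubgroup.mem_addSubgroupOf] at h1
      obtain ⟨h0, hh0, hh⟩ := h1
      refine ⟨h0, hh0, fun v => ?_⟩
      rw [← hh v]
      rfl
    obtain ⟨h0, hh0, hrel⟩ := hrel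
    have hgf0 : g • f ≠ 0 := by
      intro h
      apply hf0
      have := congrArg (g⁻¹ • ·) h
      simpa using this
    -- `(g • f) / h0 ∈ L(A)`
    have hgA : g • A = g • D + n • Finsupp.single v0 (1 : ℤ) := by
      rw [hA, smul_add, smul_comm g n, SemilinearAut.smul_single, hv0g]
    have hf1mem : (g • f) * h0⁻¹ ∈ riemannRochSpace A := by
      rw [rt_mem_L_iff (mul_ne_zero hgf0 (inv_ne_zero hh0))]
      intro v
      rw [v.ord_mul hgf0 (inv_ne_zero hh0), v.ord_inv]
      have h1 := (rt_mem_L_iff hf0).mp hfmem (g⁻¹ • v)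
      have h2 := SemilinearAut.ord_smul g (g⁻¹ • v) f
      rw [smul_inv_smul] at h2
      have h3 : (g • A) v = A (g⁻¹ • v) := SemilinearAut.divisor_smul_apply g A v
      have h4 := hrel v
      rw [Finsupp.add_apply, Finsupp.neg_apply] at h4
      have h5 : (g • A) v = (g • D) v + (n • Finsupp.single v0 (1 : ℤ)) v := by
        rw [hgA, Finsupp.add_apply]
      have h6 : A v = D v + (n • Finsupp.single v0 (1 : ℤ)) v := by
        rw [hA, Finsupp.add_apply]
      omega
    obtain ⟨a, ha⟩ := hline' _ hf1mem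
    have ha0 : a ≠ 0 := by
      rintro rfl
      rw [zero_smul] at ha
      exact mul_ne_zero hgf0 (inv_ne_zero hh0) ha
    have hgf : g • f = (a • f) * h0 := by
      rw [← ha, mul_assoc, inv_mul_cancel₀ hh0, mul_one]
    have hdivh0 : rt_div hx h0 = -(g • D) + D := by
      ext v
      rw [rt_div_apply, hrel v]
    rw [hE, smul_add, ← fcl_div_smul hx g f, hgf,
      rt_div_mul hx (smul_ne_zero ha0 hf0) hh0, fcl_div_const_smul hx ha0, hdivh0, hgA, hA]
    abel
  · apply (QuotientAddGroup.eq).mpr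
    rw [AddSubgroup.mem_addSubgroupOf]
    refine ⟨f, hf0, fun v => ?_⟩
    show (-D + (E - n • Finsupp.single v0 (1 : ℤ))) v = v.ord f
    rw [hEn, neg_add_cancel_left, rt_div_apply]

end rep

end Fermat.Agent.SS2
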