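/-
Project S35 (SS2), cell [DESC-U] (helper22), part (D1'): THE KUMMER FORM of `DescU/Stable.lean`.

`F / K` a function field over an algebraically closed field `K` with a separating generator `x`,
`S` a set of semilinear automorphisms all fixing a place `v0`, `m ≥ 1`.

* `ss2_du_kummer_stable` : `f ≠ 0` with all orders divisible by `m` and
  `g • f = c_g · r_g^m · f` for all `g ∈ S` (`c_g ∈ K`, `r_g ∈ Fˣ`) ⟹ there is `r0 ≠ 0` such that
  `f' := f · r0^m` satisfies `g • f' = a_g · f'` with `a_g ∈ Kˣ`, for all `g ∈ S`.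

(The class of `div(f)/m` is fixed by `S`, so it contains an `S`-stable divisor `D'`, and
`div(f · r0^m) = m D'` is `S`-stable; a function without zeros and poles is constant.)
Prefix `ss2_du_`.
-/
import Mathlib
import Fermat.Agent.SS2.DescU.Stable

set_option autoImplicit false
set_option linter.unusedSectionVars false
set_option linter.unusedVariables false

namespace Fermat.Agent.SS2

open AlgebraicCurve IntermediateField Polynomial Fermat.Agent.S24 Fermat.Agent.JT3
  Fermat.Agent.S35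

universe u v
variable {K : Type u} {F : Type v} [Field K] [Field F] [Algebra K F]

theorem ss2_du_mk_eq_mk_iff {D E : Divisor.degZero (K := K) (F := F)} :
    Pic0.mk D = Pic0.mk E ↔
      (E : Divisor K F) - (D : Divisor K F) ∈ Divisor.principal (K := K) (F := F) := by
  rw [Pic0.mk, Pic0.mk, QuotientAddGroup.eq, AddSubgroup.mem_addSubgroupOf]
  have : ((↑(-D + E) : Divisor K F)) = (E : Divisor K F) - (D : Divisor K F) := by
    push_cast
    abel
  rw [this]

theorem ss2_du_divisor_nsmul_injective {m : ℕ} (hm : m ≠ 0) {A B : Divisor K F}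
    (h : m • A = m • B) : A = B := by
  ext v
  have h1 := DFunLike.congr_fun h v
  rw [Finsupp.smul_apply, Finsupp.smul_apply, nsmul_eq_mul, nsmul_eq_mul] at h1
  exact mul_left_cancel₀ (by exact_mod_cast hm) h1

section main

variable [IsAlgClosed K] {x : F} (hx : rt_IsSepGen K x)

include hx

theorem ss2_du_div_pow (r : F) (m : ℕ) : rt_div hx (r ^ m) = m • rt_div hx r := by
  ext v
  rw [rt_div_apply, rt_ord_pow, Finsupp.smul_apply, rt_div_apply, nsmul_eq_mul]

/-- a divisor `D` with `m • D = div f`, if all orders of `f` are divisible by `m`. -/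
theorem ss2_du_exists_divRoot {m : ℕ} (f : F) (hord : ∀ v : Place K F, (m : ℤ) ∣ v.ord f) :
    ∃ D : Divisor K F, m • D = rt_div hx f := by
  classical
  refine ⟨Finsupp.mapRange (fun a : ℤ => a / (m : ℤ)) (by simp) (rt_div hx f), ?_⟩
  ext v
  rw [Finsupp.smul_apply, Finsupp.mapRange_apply, rt_div_apply, nsmul_eq_mul]
  exact Int.mul_ediv_cancel' (hord v)

/-- a function all of whose orders vanish is a nonzero constant. -/
theorem ss2_du_const_of_div_eq_zero {h : F} (hh : h ≠ 0) (hdiv : ∀ v : Place K F, v.ord h = 0) :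
    ∃ a : K, a ≠ 0 ∧ h = algebraMap K F a := by
  have hmem : h ∈ riemannRochSpace (0 : Divisor K F) := by
    rw [rt_mem_L_iff hh]
    intro v
    rw [hdiv v]
    simp
  rw [rt_L_zero_eq hx] at hmem
  obtain ⟨a, ha⟩ := hmem
  refine ⟨a, ?_, ha.symm⟩
  rintro rfl
  apply hh
  rw [← ha]
  simp

/-- **Kummer form of the stable representative.** -/
theorem ss2_du_kummer_stable (S : Set (SemilinearAut K F)) (v0 : Place K F)
    (hv0 : ∀ g ∈ S, g • v0 = v0) {m : ℕ} (hm : m ≠ 0) {f : F} (hf : f ≠ 0)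
    (hord : ∀ v : Place K F, (m : ℤ) ∣ v.ord f)
    (hfix : ∀ g ∈ S, ∃ (c : K) (r : F), c ≠ 0 ∧ r ≠ 0 ∧
      g • f = algebraMap K F c * r ^ m * f) :
    ∃ r0 : F, r0 ≠ 0 ∧ ∀ g ∈ S, ∃ a : K, a ≠ 0 ∧
      g • (f * r0 ^ m) = algebraMap K F a * (f * r0 ^ m) := by
  classical
  obtain ⟨D, hD⟩ := ss2_du_exists_divRoot hx f hord
  have hDdeg : D ∈ Divisor.degZero (K := K) (F := F) := by
    rw [Divisor.mem_degZero]
    have h1 : Divisor.degree (m • D) = 0 := by rw [hD, rt_degree_div]
    rw [map_nsmul, nsmul_eq_mul] at h1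
    rcases mul_eq_zero.mp h1 with h2 | h2
    · exact absurd (by exact_mod_cast h2) hm
    · exact h2
  -- the class of `D` is fixed by `S`
  have hcfix : ∀ g ∈ S, g • Pic0.mk ⟨D, hDdeg⟩ = Pic0.mk ⟨D, hDdeg⟩ := by
    intro g hg
    obtain ⟨c, r, hc0, hr0, hgf⟩ := hfix g hg
    rw [SemilinearAut.pic0_smul_mk, ss2_du_mk_eq_mk_iff, SemilinearAut.coe_degZeroSMulHom]
    rw [← neg_mem_iff]
    refine ⟨r, hr0, ?_⟩
    have hkey : m • (-((D : Divisor K F) - g • D)) = m • rt_div hx r := by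
      have h1 : m • (-((D : Divisor K F) - g • D)) = g • (m • D) - m • D := by
        rw [neg_sub, smul_sub, smul_comm g m D]
      rw [h1, hD, ← fcl_div_smul hx g f, hgf,
        rt_div_mul hx (mul_ne_zero ((_root_.map_ne_zero _).mpr hc0) (pow_ne_zero _ hr0)) hf,
        rt_div_mul hx ((_root_.map_ne_zero _).mpr hc0) (pow_ne_zero _ hr0), rt_div_algebraMap,
        ss2_du_div_pow]
      abel
    have := ss2_du_divisor_nsmul_injective hm hkey
    intro v
    rw [this, rt_div_apply]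
  obtain ⟨n, E, hdeg, hE0, hEdeg, hEfix, hcE⟩ :=
    ss2_du_exists_stable_rep hx S v0 hv0 (Pic0.mk ⟨D, hDdeg⟩) hcfix
  rw [ss2_du_mk_eq_mk_iff] at hcE
  obtain ⟨r0, hr0, hr0div⟩ := hcE
  -- `D' := E - n v0 = D + div r0`
  have hD' : E - n • Finsupp.single v0 (1 : ℤ) = D + rt_div hx r0 := by
    ext v
    have := hr0div v
    rw [Finsupp.sub_apply] at this
    rw [Finsupp.add_apply, rt_div_apply, ← this]
    ring
  have hf'0 : f * r0 ^ m ≠ 0 := mul_ne_zero hf (pow_ne_zero _ hr0)
  have hdivf' : rt_div hx (f * r0 ^ m) = m • (E - n • Finsupp.single v0 (1 : ℤ)) := by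
    rw [rt_div_mul hx hf (pow_ne_zero _ hr0), ss2_du_div_pow, hD', smul_add, hD]
  refine ⟨r0, hr0, fun g hg => ?_⟩
  have hgD' : g • (E - n • Finsupp.single v0 (1 : ℤ)) = E - n • Finsupp.single v0 (1 : ℤ) := by
    rw [smul_sub, hEfix g hg, smul_comm g n, SemilinearAut.smul_single, hv0 g hg]
  have hgf'0 : g • (f * r0 ^ m) ≠ 0 := by
    intro h
    apply hf'0
    have := congrArg (g⁻¹ • ·) h
    simpa using this
  have hdivg : rt_div hx (g • (f * r0 ^ m)) = rt_div hx (f * r0 ^ m) := by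
    rw [fcl_div_smul hx g, hdivf', smul_comm g m, hgD']
  have hquot : ∀ v : Place K F, v.ord (g • (f * r0 ^ m) * (f * r0 ^ m)⁻¹) = 0 := by
    intro v
    rw [v.ord_mul hgf'0 (inv_ne_zero hf'0), v.ord_inv]
    have := DFunLike.congr_fun hdivg v
    rw [rt_div_apply, rt_div_apply] at this
    omega
  obtain ⟨a, ha0, ha⟩ := ss2_du_const_of_div_eq_zero hx
    (mul_ne_zero hgf'0 (inv_ne_zero hf'0)) hquot
  refine ⟨a, ha0, ?_⟩
  rw [← ha, mul_assoc, inv_mul_cancel₀ hf'0, mul_one]

end main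

end Fermat.Agent.SS2
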