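/-
Project S35 (SS2), cell [DESC-U] (helper22), part (D2): DESCENT OF A KUMMER GENERATOR TO `F_{L1}`.

`F₀ ⊆ ℚ((q))`, `F_L := laurentBaseChange L F₀`, `x` a separating generator of `F_Q̄ / Q̄`, `Pinf` a
place of `F_Q̄` fixed by the coefficientwise Galois action (the cusp `∞`), `L1 → Q̄` a subfield.

* `ss2_du_exists_lead` : dividing by the leading `q`-coefficient kills the constants `τ f / f`;
* `ss2_du_descend`     : `f ∈ F_Q̄ˣ` with all orders divisible by `m ≥ 1` whose Kummer class is fixed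
  by every `τ ∈ G_ℚ` fixing `L1` pointwise (`τ f = c_τ · r_τ^m · f`) is `c · r^m · bc(g1)` with
  `g1 ∈ F_{L1}ˣ`, all orders of `g1` (at the places of `F_{L1} / L1`) divisible by `m`.
  (I.e. `Pic(X_{L1})[m] → Pic(X_Q̄)[m]^{Gal(Q̄/L1)}` is onto, because `X` has a rational point.)
Prefix `ss2_du_`.
-/
import Mathlib
import Fermat.Agent.SS2.DescU.Kummer
import Fermat.Agent.SS2.DescU.Fixed

set_option autoImplicit false
set_option linter.unusedSectionVars false
set_option linter.unusedVariables false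
set_option linter.style.haveILetI false

noncomputable section

namespace Fermat.Agent.SS2

open ModularCurve AlgebraicCurve Fermat.Agent.JT3 Fermat.Agent.S24 Fermat.Agent.SS
  IntermediateField Polynomial

local notation "Qb" => AlgebraicClosure ℚ

variable (F₀ : IntermediateField ℚ (LaurentSeries ℚ))

/-- **normalisation by the leading coefficient**: for `f ≠ 0` there is a constant `a ≠ 0` such
that `f1 := a⁻¹ f` satisfies: `τ f1 = b · f1` with `b` constant forces `b = 1`. -/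
theorem ss2_du_exists_lead (f : laurentBaseChange Qb F₀) (hf : f ≠ 0) :
    ∃ a : Qb, a ≠ 0 ∧ ∀ (τ : Qb ≃ₐ[ℚ] Qb) (b : Qb),
      arithmeticGalois F₀ τ • (algebraMap Qb (laurentBaseChange Qb F₀) a⁻¹ * f) =
        algebraMap Qb (laurentBaseChange Qb F₀) b *
          (algebraMap Qb (laurentBaseChange Qb F₀) a⁻¹ * f) → b = 1 := by
  have hf' : (f : LaurentSeries Qb) ≠ 0 := fun h => hf (Subtype.ext h)
  set n : ℤ := (f : LaurentSeries Qb).order with hn
  set a : Qb := (f : LaurentSeries Qb).coeff n with ha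
  have ha0 : a ≠ 0 := fun h => hf' (HahnSeries.coeff_order_eq_zero.mp h)
  refine ⟨a, ha0, fun τ b h => ?_⟩
  have hcoe : ((algebraMap Qb (laurentBaseChange Qb F₀) a⁻¹ * f : laurentBaseChange Qb F₀) :
      LaurentSeries Qb) = HahnSeries.single 0 a⁻¹ * (f : LaurentSeries Qb) := by
    rw [← algebraMap_laurentSeries_eq_single]
    rfl
  have hc1 : ((algebraMap Qb (laurentBaseChange Qb F₀) a⁻¹ * f : laurentBaseChange Qb F₀) :
      LaurentSeries Qb).coeff n = 1 := by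
    rw [hcoe, HahnSeries.coeff_single_zero_mul, ← ha, inv_mul_cancel₀ ha0]
  have h1 : ((arithmeticGalois F₀ τ • (algebraMap Qb (laurentBaseChange Qb F₀) a⁻¹ * f) :
      laurentBaseChange Qb F₀) : LaurentSeries Qb).coeff n =
      ((algebraMap Qb (laurentBaseChange Qb F₀) b *
        (algebraMap Qb (laurentBaseChange Qb F₀) a⁻¹ * f) : laurentBaseChange Qb F₀) :
          LaurentSeries Qb).coeff n := by rw [h]
  rw [coe_arithmeticGalois_smul, coeffMap_coeff, hc1] at h1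
  have hcoe2 : ((algebraMap Qb (laurentBaseChange Qb F₀) b *
      (algebraMap Qb (laurentBaseChange Qb F₀) a⁻¹ * f) : laurentBaseChange Qb F₀) :
      LaurentSeries Qb) = HahnSeries.single 0 b *
        ((algebraMap Qb (laurentBaseChange Qb F₀) a⁻¹ * f : laurentBaseChange Qb F₀) :
          LaurentSeries Qb) := by
    rw [← algebraMap_laurentSeries_eq_single]
    rfl
  rw [hcoe2, HahnSeries.coeff_single_zero_mul, hc1, mul_one] at h1
  rw [← h1]
  simp

variable {F₀}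

/-- **[DESC-U], (D2)**: descent of the Kummer generator of a class fixed by `Gal(Q̄ / L1)`. -/
theorem ss2_du_descend {x : laurentBaseChange Qb F₀} (hx : rt_IsSepGen Qb x)
    (Pinf : Place Qb (laurentBaseChange Qb F₀))
    (hPinf : ∀ τ : Qb ≃ₐ[ℚ] Qb, arithmeticGalois F₀ τ • Pinf = Pinf)
    (L1 : Type) [Field L1] [Algebra ℚ L1] [Algebra L1 Qb] [IsScalarTower ℚ L1 Qb]
    {m : ℕ} (hm : m ≠ 0) {f : laurentBaseChange Qb F₀} (hf : f ≠ 0)
    (hord : ∀ v : Place Qb (laurentBaseChange Qb F₀), (m : ℤ) ∣ v.ord f)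
    (hfix : ∀ τ : Qb ≃ₐ[ℚ] Qb, (∀ a : L1, τ (algebraMap L1 Qb a) = algebraMap L1 Qb a) →
      ∃ (c : Qb) (r : laurentBaseChange Qb F₀), c ≠ 0 ∧ r ≠ 0 ∧
        arithmeticGalois F₀ τ • f = algebraMap Qb (laurentBaseChange Qb F₀) c * r ^ m * f) :
    ∃ (g1 : laurentBaseChange L1 F₀) (c : Qb) (r : laurentBaseChange Qb F₀),
      g1 ≠ 0 ∧ c ≠ 0 ∧ r ≠ 0 ∧
      f = algebraMap Qb (laurentBaseChange Qb F₀) c * r ^ m * dsc_bcHom L1 Qb F₀ g1 ∧
      ∀ w : Place L1 (laurentBaseChange L1 F₀), (m : ℤ) ∣ w.ord g1 := by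
  classical
  haveI : Algebra.IsAlgebraic ℚ Qb := AlgebraicClosure.isAlgebraic ℚ
  haveI : Algebra.IsAlgebraic L1 Qb := Algebra.IsAlgebraic.tower_top (K := ℚ) L1
  set S : Set (SemilinearAut Qb (laurentBaseChange Qb F₀)) :=
    {g | ∃ τ : Qb ≃ₐ[ℚ] Qb, (∀ a : L1, τ (algebraMap L1 Qb a) = algebraMap L1 Qb a) ∧
      g = arithmeticGalois F₀ τ} with hS
  obtain ⟨r0, hr0, hstab⟩ := ss2_du_kummer_stable hx S Pinf
    (by rintro g ⟨τ, _, rfl⟩; exact hPinf τ) hm hf hord
    (by rintro g ⟨τ, hτ, rfl⟩; exact hfix τ hτ)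
  have hf'0 : f * r0 ^ m ≠ 0 := mul_ne_zero hf (pow_ne_zero _ hr0)
  obtain ⟨a0, ha0, hlead⟩ := ss2_du_exists_lead F₀ (f * r0 ^ m) hf'0
  -- the normalised function is fixed
  have hfixed : ∀ τ : Qb ≃ₐ[ℚ] Qb, (∀ a : L1, τ (algebraMap L1 Qb a) = algebraMap L1 Qb a) →
      arithmeticGalois F₀ τ • (algebraMap Qb (laurentBaseChange Qb F₀) a0⁻¹ * (f * r0 ^ m)) =
        algebraMap Qb (laurentBaseChange Qb F₀) a0⁻¹ * (f * r0 ^ m) := by
    intro τ hτ
    obtain ⟨a, ha, hga⟩ := hstab (arithmeticGalois F₀ τ) ⟨τ, hτ, rfl⟩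
    have hτa0 : τ a0⁻¹ ≠ 0 := (_root_.map_ne_zero τ).mpr (inv_ne_zero ha0)
    have h1 : arithmeticGalois F₀ τ •
        (algebraMap Qb (laurentBaseChange Qb F₀) a0⁻¹ * (f * r0 ^ m)) =
        algebraMap Qb (laurentBaseChange Qb F₀) (τ a0⁻¹ * a * a0) *
          (algebraMap Qb (laurentBaseChange Qb F₀) a0⁻¹ * (f * r0 ^ m)) := by
      rw [smul_mul', hga, SemilinearAut.smul_algebraMap]
      have : (SemilinearAut.baseAut (arithmeticGalois F₀ τ)) a0⁻¹ = τ a0⁻¹ := rfl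
      rw [this, map_mul, map_mul]
      have h4 : algebraMap Qb (laurentBaseChange Qb F₀) a0 *
          algebraMap Qb (laurentBaseChange Qb F₀) a0⁻¹ = 1 := by
        rw [← map_mul, mul_inv_cancel₀ ha0, map_one]
      calc algebraMap Qb (laurentBaseChange Qb F₀) (τ a0⁻¹) *
            (algebraMap Qb (laurentBaseChange Qb F₀) a * (f * r0 ^ m))
          = algebraMap Qb (laurentBaseChange Qb F₀) (τ a0⁻¹) *
            algebraMap Qb (laurentBaseChange Qb F₀) a *
            (algebraMap Qb (laurentBaseChange Qb F₀) a0 *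
              algebraMap Qb (laurentBaseChange Qb F₀) a0⁻¹) * (f * r0 ^ m) := by
            rw [h4]; ring
        _ = _ := by ring
    have hb := hlead τ _ h1
    rw [h1, hb, map_one, one_mul]
  obtain ⟨g1, hg1⟩ := ss2_du_fixed_mem_range F₀ L1 _ hfixed
  have hg1ne : g1 ≠ 0 := by
    rintro rfl
    rw [map_zero] at hg1
    exact mul_ne_zero ((_root_.map_ne_zero _).mpr (inv_ne_zero ha0)) hf'0 hg1.symm
  have hfeq : f = algebraMap Qb (laurentBaseChange Qb F₀) a0 * r0⁻¹ ^ m *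
      dsc_bcHom L1 Qb F₀ g1 := by
    rw [hg1, map_inv₀, inv_pow]
    have h2 : algebraMap Qb (laurentBaseChange Qb F₀) a0 ≠ 0 := (_root_.map_ne_zero _).mpr ha0
    have h3 : r0 ^ m ≠ 0 := pow_ne_zero _ hr0
    field_simp
  refine ⟨g1, a0, r0⁻¹, hg1ne, ha0, inv_ne_zero hr0, hfeq, ?_⟩
  apply dsc_bc_dvd_ord L1 Qb F₀ (m : ℤ) g1
  intro P
  rw [hg1, P.ord_mul ((_root_.map_ne_zero _).mpr (inv_ne_zero ha0)) hf'0, hw_ord_algebraMap,
    zero_add, P.ord_mul hf (pow_ne_zero _ hr0), rt_ord_pow]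
  exact dvd_add (hord P) (dvd_mul_right _ _)

end Fermat.Agent.SS2
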